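/-
Programme FF, chapter LEVEL (F8), file Transfer0: level transfer and the frozen shape of S19.

* `torsAct N n σ x` : the Galois action on `J0(N)[n]` (`n : ℤ`), `σ • x` with its membership proof.
* `TorsFlat N ℓ k : Prop` := `HasFlatModel ℤ_(ℓ) ℚ̄ G_ℚ (J0(N)[ℓ^k]) (torsAct N (ℓ^k))`
  (`Points6.HasFlatModel`, the shape used by the whole TW/FLAT toolkit).
* `frozen_of_torsFlat` : `TorsFlat N ℓ k →` the frozen S19 existential (verbatim shape).
* `torsFlat_of_dvd` : for `N ∣ M` with `π^* : J0(N) → J0(M)` injective on `ℓ^k`-torsion,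
  `TorsFlat M ℓ k → TorsFlat N ℓ k` ("a Galois-stable subgroup of a flat module is flat",
  `Closure6.HasFlatModel.subgroup`, through `FlatModule6.hasFlatModel_subgroup_at`).
* `torsFlat_of_auxLevel` : `TorsFlat (auxLevel ℓ N) ℓ k → TorsFlat N ℓ k`
  (`PullbackInj12.levelPullback_auxLevel_eq_zero`).
-/
import Mathlib
import Fermat.Agent.ES.RED.PullbackInj12
import Fermat.Agent.TW.FLAT.FlatModule6

set_option autoImplicit false

open AlgebraicCurve ModularCurve

namespace Fermat.Agent.FF.LEVEL.Transfer0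

open Fermat.Agent.TW.FLAT.Points6 Fermat.Agent.TW.FLAT.FlatModule6 GaloisRep
open Fermat.Agent.ES.HECKE.LevelPullback12 Fermat.Agent.ES.RED.PullbackInj12

noncomputable section

lemma smul_zsmul_comm_aux {N : ℕ} [NeZero N] (σ : GQ) (n : ℤ) (x : JZero N) :
    σ • (n • x) = n • (σ • x) :=
  map_zsmul (DistribSMul.toAddMonoidHom (JZero N) σ) n x

/-- The Galois action on `J0(N)[n]`. -/
def torsAct (N : ℕ) [NeZero N] (n : ℤ) (σ : GQ) (x : Submodule.torsionBy ℤ (JZero N) n) :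
    Submodule.torsionBy ℤ (JZero N) n :=
  ⟨σ • (x : JZero N), by
    have hx := x.2
    rw [Submodule.mem_torsionBy_iff] at hx ⊢
    rw [← smul_zsmul_comm_aux σ n (x : JZero N), hx, smul_zero]⟩

@[simp] lemma coe_torsAct (N : ℕ) [NeZero N] (n : ℤ) (σ : GQ)
    (x : Submodule.torsionBy ℤ (JZero N) n) :
    ((torsAct N n σ x : Submodule.torsionBy ℤ (JZero N) n) : JZero N) = σ • (x : JZero N) := rfl

/-- `J0(N)[ℓ^k]` is the group of `ℚ̄`-points of a finite flat commutative group scheme over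
`ℤ_(ℓ)`, `G_ℚ`-equivariantly. -/
def TorsFlat (N : ℕ) [NeZero N] (ℓ k : ℕ) : Prop :=
  HasFlatModel (ratLocalizedAt ℓ) Qb GQ (Submodule.torsionBy ℤ (JZero N) ((ℓ : ℤ) ^ k))
    (torsAct N ((ℓ : ℤ) ^ k))

/-- The frozen shape of S19 from `TorsFlat`. -/
theorem frozen_of_torsFlat (N : ℕ) [NeZero N] (ℓ k : ℕ) (h : TorsFlat N ℓ k) :
    ∃ (H : Type) (_ : CommRing H) (_ : HopfAlgebra (GaloisRep.ratLocalizedAt ℓ) H),
      Module.Finite (GaloisRep.ratLocalizedAt ℓ) H ∧ Module.Flat (GaloisRep.ratLocalizedAt ℓ) H ∧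
      Coalgebra.IsCocomm (GaloisRep.ratLocalizedAt ℓ) H ∧
      ∃ e : WithConv (H →ₐ[GaloisRep.ratLocalizedAt ℓ] AlgebraicClosure ℚ) ≃
          ↥(Submodule.torsionBy ℤ (JZero N) ((ℓ : ℤ) ^ k)),
        (∀ f g, e (f * g) = e f + e g) ∧
        ∀ (σ : AlgebraicClosure ℚ ≃ₐ[ℚ] AlgebraicClosure ℚ)
          (f g : WithConv (H →ₐ[GaloisRep.ratLocalizedAt ℓ] AlgebraicClosure ℚ)),
          (∀ h : H, g h = σ (f h)) → ((e g : JZero N)) = σ • (e f : JZero N) := by
  obtain ⟨H, i1, i2, hfin, hflat, hco, e, hmul, heq⟩ := h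
  refine ⟨H, i1, i2, hfin, hflat, hco, e, hmul, ?_⟩
  intro σ f g hg
  have : σ • f = g := (algEquiv_smul_eq_iff σ f g).2 hg
  rw [← this, heq σ f]
  rfl

section Dvd

variable {N M : ℕ} [NeZero N] [NeZero M]

/-- `π^*` restricted to `n`-torsion. -/
def torsPullback (h : N ∣ M) (n : ℤ) :
    Submodule.torsionBy ℤ (JZero N) n →+ Submodule.torsionBy ℤ (JZero M) n where
  toFun x := ⟨levelPullback h (x : JZero N), by
    have hx := x.2
    rw [Submodule.mem_torsionBy_iff] at hx ⊢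
    rw [← map_zsmul, hx, map_zero]⟩
  map_zero' := by
    apply Subtype.ext
    simp
  map_add' x y := by
    apply Subtype.ext
    simp

@[simp] lemma coe_torsPullback (h : N ∣ M) (n : ℤ) (x : Submodule.torsionBy ℤ (JZero N) n) :
    ((torsPullback h n x : Submodule.torsionBy ℤ (JZero M) n) : JZero M)
      = levelPullback h (x : JZero N) := rfl

lemma torsPullback_torsAct (h : N ∣ M) (n : ℤ) (σ : GQ) (x : Submodule.torsionBy ℤ (JZero N) n) :
    torsPullback h n (torsAct N n σ x) = torsAct M n σ (torsPullback h n x) := by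
  apply Subtype.ext
  simp only [coe_torsPullback, coe_torsAct]
  exact levelPullback_smul h σ (x : JZero N)

/-- Level transfer: if `π^*` is injective on `ℓ^k`-torsion, flatness descends from level `M` to
level `N`. -/
theorem torsFlat_of_dvd (ℓ : ℕ) [Fact ℓ.Prime] (k : ℕ) (h : N ∣ M)
    (hinj : ∀ x : JZero N, ((ℓ : ℤ) ^ k) • x = 0 → levelPullback h x = 0 → x = 0)
    (hM : TorsFlat M ℓ k) : TorsFlat N ℓ k := by
  set n : ℤ := (ℓ : ℤ) ^ k with hn
  let φ := torsPullback h n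
  have hφinj : Function.Injective φ := by
    rw [injective_iff_map_eq_zero]
    intro x hx
    apply Subtype.ext
    have hx' : levelPullback h (x : JZero N) = 0 := congrArg Subtype.val hx
    have hxt := x.2
    rw [Submodule.mem_torsionBy_iff] at hxt
    exact hinj x hxt hx'
  -- the image subgroup, Galois-stable
  let S : AddSubgroup (Submodule.torsionBy ℤ (JZero M) n) := φ.range
  have hS : ∀ (σ : GQ), ∀ m ∈ S, torsAct M n σ m ∈ S := by
    rintro σ _ ⟨x, rfl⟩
    exact ⟨torsAct N n σ x, torsPullback_torsAct h n σ x⟩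
  have hsub := hasFlatModel_subgroup_at ℓ hM S hS
  -- transport along `φ : J0(N)[n] ≃ S`
  let ψ : Submodule.torsionBy ℤ (JZero N) n ≃+ S := AddMonoidHom.ofInjective hφinj
  refine HasFlatModel.of_addEquiv hsub ψ.symm ?_
  intro σ m
  apply ψ.injective
  rw [AddEquiv.apply_symm_apply]
  apply Subtype.ext
  change torsAct M n σ m.1 = φ (torsAct N n σ (ψ.symm m))
  rw [torsPullback_torsAct h n σ (ψ.symm m)]
  congr 1
  exact (congrArg Subtype.val (ψ.apply_symm_apply m)).symm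

end Dvd

/-- Level transfer from the auxiliary level. -/
theorem torsFlat_of_auxLevel (ℓ : ℕ) [Fact ℓ.Prime] (N : ℕ) [NeZero N] (k : ℕ)
    (hM : haveI := Fermat.Agent.RED.LVL.LevelDegree17.neZero_auxLevel ℓ N
      TorsFlat (Fermat.Agent.RED.Interface4.auxLevel ℓ N) ℓ k) : TorsFlat N ℓ k := by
  haveI := Fermat.Agent.RED.LVL.LevelDegree17.neZero_auxLevel ℓ N
  refine torsFlat_of_dvd ℓ k (Fermat.Agent.RED.Interface4.dvd_auxLevel ℓ N) ?_ hM
  intro x hx hpx
  have hpos : 0 < ℓ ^ k := pow_pos (Fact.out : ℓ.Prime).pos k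
  refine levelPullback_auxLevel_eq_zero ℓ N (ℓ ^ k) hpos x ?_ hpx
  rw [← natCast_zsmul]
  push_cast
  exact hx

end

end Fermat.Agent.FF.LEVEL.Transfer0
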