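/-
Programme FF, chapter LEVEL (F8), file Trivial0: the trivial group has a flat model (`H = R`), hence
`TorsFlat N ℓ k` when `J0(N)` is trivial (genus zero).

* `hasFlatModel_of_subsingleton` : `[Subsingleton M] → HasFlatModel R Ω Γ M act`.
* `torsFlat_of_genus_zero` : `genus (Fbar N) = 0 → TorsFlat N ℓ k`.
-/
import Mathlib
import Fermat.Agent.FF.LEVEL.Transfer0
import Fermat.Agent.MW.ASM.GenusZero0

set_option autoImplicit false

open AlgebraicCurve ModularCurve

namespace Fermat.Agent.FF.LEVEL.Trivial0

open Fermat.Agent.TW.FLAT.Points6 Fermat.Agent.TW.FLAT.FlatModule6 GaloisRep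
open Fermat.Agent.FF.LEVEL.Transfer0

noncomputable section

/-- The trivial group is the group of points of the trivial group scheme `Spec R`. -/
theorem hasFlatModel_of_subsingleton (R : Type) [CommRing R] (Ω : Type) [CommRing Ω] [Algebra R Ω]
    (Γ : Type) [Monoid Γ] [MulSemiringAction Γ Ω] [SMulCommClass Γ R Ω]
    (M : Type) [AddCommGroup M] [Subsingleton M] (act : Γ → M → M) :
    HasFlatModel R Ω Γ M act := by
  refine ⟨R, inferInstance, inferInstance, inferInstance, inferInstance, inferInstance, ?_, ?_, ?_⟩
  · exact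
      { toFun := fun _ => 0
        invFun := fun _ => 1
        left_inv := fun f => by
          apply WithConv.ofConv_injective
          exact Subsingleton.elim _ _
        right_inv := fun m => Subsingleton.elim _ _ }
  · intro f g
    exact Subsingleton.elim _ _
  · intro σ f
    exact Subsingleton.elim _ _

/-- Genus zero: `J0(N)` is trivial, so every torsion level is flat. -/
theorem torsFlat_of_genus_zero (N : ℕ) [NeZero N] (ℓ k : ℕ)
    (h : genus (AlgebraicClosure ℚ) ↥(modularFunctionFieldBar N) = 0) : TorsFlat N ℓ k := by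
  haveI : Subsingleton (Submodule.torsionBy ℤ (JZero N) ((ℓ : ℤ) ^ k)) :=
    ⟨fun a b => Subtype.ext (by
      rw [Fermat.Agent.MW.ASM.GenusZero0.eq_zero_of_genus_zero h a.1,
        Fermat.Agent.MW.ASM.GenusZero0.eq_zero_of_genus_zero h b.1])⟩
  exact hasFlatModel_of_subsingleton _ _ _ _ _

end

end Fermat.Agent.FF.LEVEL.Trivial0
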